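import Fermat.Agent.TwoAdic.Theta.Field.Ideals
import Fermat.Agent.TwoAdic.Theta.Forms

/-!
# The forms of the ideal classes

A class `C` corresponds to the norm form of a fixed ideal `I` of class `C⁻¹`: the elements of `I`
up to sign are the ideals of class `C`. The Gauss sums modulo `c` do not change when `C` is
multiplied by the square of the class of an ideal of norm prime to `c`.
-/

set_option autoImplicit false

noncomputable section

namespace Fermat.Agent.TwoAdic.Theta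

open scoped NumberField nonZeroDivisors

namespace FieldData

variable {m : ℕ} {K : Type} [Field K] [NumberField K] {D : FieldData m K}
  {I : Ideal (𝓞 K)} {k a : ℕ} {b : ℤ}

/-- The norm form of an ideal. -/
def IsNormalForm.form (h : D.IsNormalForm I k a b) : BinForm (2 * m) where
  A := a
  B := b
  C := (b ^ 2 + 2 * m) / a
  A_pos := by exact_mod_cast h.a_pos
  disc := by rw [Int.mul_ediv_cancel' h.dvd]; push_cast; ring

/-- The element with given coordinates. -/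
def IsNormalForm.point (_h : D.IsNormalForm I k a b) (v : ℤ × ℤ) : 𝓞 K :=
  D.elt (k * (v.1 * a + v.2 * b)) (k * v.2)

theorem IsNormalForm.point_mem (h : D.IsNormalForm I k a b) (v : ℤ × ℤ) : h.point v ∈ I :=
  h.mem_elt _ _

theorem IsNormalForm.point_injective (h : D.IsNormalForm I k a b) :
    Function.Injective h.point := by
  intro v w e
  obtain ⟨h1, h2⟩ := D.elt_inj.mp e
  have hk : (k : ℤ) ≠ 0 := Int.natCast_ne_zero.mpr h.k_pos.ne'
  have ha : (a : ℤ) ≠ 0 := Int.natCast_ne_zero.mpr h.a_pos.ne'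
  have e2 := mul_left_cancel₀ hk h2
  have e1 := mul_left_cancel₀ hk h1
  rw [e2, add_left_inj] at e1
  exact Prod.ext (mul_right_cancel₀ ha e1) e2

theorem IsNormalForm.exists_point (h : D.IsNormalForm I k a b) {z : 𝓞 K} (hz : z ∈ I) :
    ∃ v, z = h.point v :=
  (h.exists_coords hz).elim fun u ⟨v, hv⟩ => ⟨(u, v), hv⟩

theorem IsNormalForm.point_add (h : D.IsNormalForm I k a b) (v w : ℤ × ℤ) :
    h.point (v + w) = h.point v + h.point w := by
  simp only [point, D.elt_add, D.elt_inj, Prod.fst_add, Prod.snd_add]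
  constructor <;> ring

theorem IsNormalForm.point_smul (h : D.IsNormalForm I k a b) (n : ℤ) (v : ℤ × ℤ) :
    h.point (n • v) = (n : 𝓞 K) * h.point v := by
  simp only [point, D.int_mul_elt, D.elt_inj, Prod.smul_fst, Prod.smul_snd, smul_eq_mul]
  constructor <;> ring

theorem IsNormalForm.point_zero (h : D.IsNormalForm I k a b) : h.point 0 = 0 := by
  simp [point, elt_zero]

theorem IsNormalForm.norm_point (h : D.IsNormalForm I k a b) (v : ℤ × ℤ) :
    Algebra.norm ℤ (h.point v) = (Ideal.absNorm I : ℤ) * h.form.eval v := by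
  obtain ⟨c, hc⟩ := h.dvd
  have hdiv : (b ^ 2 + 2 * (m : ℤ)) / a = c := by
    rw [hc, Int.mul_ediv_cancel_left _ (Int.natCast_ne_zero.mpr h.a_pos.ne')]
  rw [point, D.norm_elt, h.absNorm_eq]
  simp only [BinForm.eval, form, hdiv]
  push_cast
  linear_combination ((k : ℤ) ^ 2 * v.2 ^ 2) * hc

variable (D)

theorem exists_generator {I J : (Ideal (𝓞 K))⁰} (h : ClassGroup.mk0 I * ClassGroup.mk0 J = 1) :
    ∃ z : 𝓞 K, z ≠ 0 ∧ (I : Ideal (𝓞 K)) * J = Ideal.span {z} := by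
  rw [← map_mul] at h
  obtain ⟨⟨z, hz⟩⟩ := (ClassGroup.mk0_eq_one_iff (I * J).2).mp h
  refine ⟨z, fun e => ?_, hz⟩
  subst e
  refine mul_ne_zero (nonZeroDivisors.ne_zero I.2) (nonZeroDivisors.ne_zero J.2) ?_
  rw [← Submonoid.coe_mul, hz]
  simp

variable {D}

theorem IsNormalForm.exists_ideal_of_point {I : (Ideal (𝓞 K))⁰}
    (h : D.IsNormalForm (I : Ideal (𝓞 K)) k a b) {C : ClassGroup (𝓞 K)}
    (hC : ClassGroup.mk0 I = C⁻¹) {v : ℤ × ℤ} {n : ℕ} (hn : 0 < n)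
    (hv : h.form.eval v = (n : ℤ)) :
    ∃ J : (Ideal (𝓞 K))⁰, (I : Ideal (𝓞 K)) * (J : Ideal (𝓞 K)) = Ideal.span {h.point v} ∧
      Ideal.absNorm (J : Ideal (𝓞 K)) = n ∧ ClassGroup.mk0 J = C := by
  obtain ⟨J, hJ⟩ : (I : Ideal (𝓞 K)) ∣ Ideal.span {h.point v} :=
    Ideal.dvd_iff_le.mpr ((Ideal.span_singleton_le_iff_mem _).mpr (h.point_mem _))
  have hI0 : Ideal.absNorm (I : Ideal (𝓞 K)) ≠ 0 :=
    Ideal.absNorm_ne_zero_iff_mem_nonZeroDivisors.mpr I.2
  have hn' : Ideal.absNorm J = n := by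
    have := congrArg Ideal.absNorm hJ
    rw [map_mul, Ideal.absNorm_span_singleton, h.norm_point, hv] at this
    simp only [Int.natAbs_mul, Int.natAbs_natCast] at this
    exact (mul_left_cancel₀ hI0 this).symm
  have hJm : J ∈ (Ideal (𝓞 K))⁰ :=
    Ideal.absNorm_ne_zero_iff_mem_nonZeroDivisors.mp (hn' ▸ hn.ne')
  refine ⟨⟨J, hJm⟩, hJ.symm, hn', ?_⟩
  have h1 : ClassGroup.mk0 (I * ⟨J, hJm⟩) = 1 := by
    rw [show I * ⟨J, hJm⟩ = (⟨(I : Ideal (𝓞 K)) * J, mul_mem I.2 hJm⟩ : (Ideal (𝓞 K))⁰) from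
      rfl, ClassGroup.mk0_eq_one_iff]
    exact ⟨⟨h.point v, hJ.symm⟩⟩
  rw [map_mul, hC, inv_mul_eq_one] at h1
  exact h1.symm

/-- The representations of `n` correspond two to one to the ideals of norm `n` in the class
inverse to that of `I`. -/
theorem IsNormalForm.repCount_eq {I : (Ideal (𝓞 K))⁰} (h : D.IsNormalForm (I : Ideal (𝓞 K)) k a b)
    {n : ℕ} (hn : 0 < n) {C : ClassGroup (𝓞 K)} (hC : ClassGroup.mk0 I = C⁻¹) :
    h.form.repCount n = 2 * Nat.card {J : (Ideal (𝓞 K))⁰ //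
      Ideal.absNorm (J : Ideal (𝓞 K)) = n ∧ ClassGroup.mk0 J = C} := by
  classical
  set T := {J : (Ideal (𝓞 K))⁰ // Ideal.absNorm (J : Ideal (𝓞 K)) = n ∧ ClassGroup.mk0 J = C}
  have hI0 : (Ideal.absNorm (I : Ideal (𝓞 K)) : ℤ) ≠ 0 :=
    Int.natCast_ne_zero.mpr (Ideal.absNorm_ne_zero_iff_mem_nonZeroDivisors.mpr I.2)
  have hgen : ∀ J : T, ∃ v : {v : ℤ × ℤ // h.form.eval v = (n : ℤ)},
      (I : Ideal (𝓞 K)) * (J.1 : Ideal (𝓞 K)) = Ideal.span {h.point v.1} := by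
    intro J
    obtain ⟨z, -, hz⟩ := exists_generator (I := I) (J := J.1) (by rw [hC, J.2.2, inv_mul_cancel])
    have hzI : z ∈ (I : Ideal (𝓞 K)) := by
      refine (Ideal.mul_le_left : (I : Ideal (𝓞 K)) * (J.1 : Ideal (𝓞 K)) ≤ _) ?_
      rw [hz]
      exact Ideal.mem_span_singleton_self z
    obtain ⟨v, rfl⟩ := h.exists_point hzI
    refine ⟨⟨v, mul_left_cancel₀ hI0 ?_⟩, hz⟩
    have := congrArg Ideal.absNorm hz
    rw [map_mul, Ideal.absNorm_span_singleton, J.2.1] at this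
    rw [← h.norm_point, ← Int.natAbs_of_nonneg (D.norm_nonneg (h.point v)), ← this, Nat.cast_mul]
  choose g hg using hgen
  have hne : ∀ v : {v : ℤ × ℤ // h.form.eval v = (n : ℤ)}, v.1 ≠ 0 := by
    rintro ⟨v, hv⟩ rfl
    simp [BinForm.eval] at hv
    omega
  have heneg : ∀ v : ℤ × ℤ, h.form.eval (-v) = h.form.eval v := fun v => by
    simp [BinForm.eval]
  have hpneg : ∀ v : ℤ × ℤ, h.point (-v) = -h.point v := fun v => by
    rw [show -v = (-1 : ℤ) • v by simp, h.point_smul]; simp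
  let Φ : T × Bool → {v : ℤ × ℤ // h.form.eval v = (n : ℤ)} := fun p =>
    if p.2 then g p.1 else ⟨-(g p.1).1, by rw [heneg]; exact (g p.1).2⟩
  have hΦ : ∀ p, (I : Ideal (𝓞 K)) * (p.1.1 : Ideal (𝓞 K)) = Ideal.span {h.point (Φ p).1} := by
    rintro ⟨J, _ | _⟩
    · simp [Φ, hg, hpneg, Ideal.span_singleton_neg]
    · simp [Φ, hg]
  have hbij : Function.Bijective Φ := by
    constructor
    · rintro ⟨J, s⟩ ⟨J', s'⟩ e
      have h1 := hΦ ⟨J, s⟩
      rw [e, ← hΦ ⟨J', s'⟩] at h1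
      obtain rfl : J = J' := Subtype.ext (Subtype.ext
        (mul_left_cancel₀ (nonZeroDivisors.ne_zero I.2) h1))
      have hv := hne (g J)
      cases s <;> cases s' <;> simp only [Φ, Bool.false_eq_true, if_true, if_false] at e <;>
        first
        | rfl
        | (have e' := congrArg Subtype.val e
           simp only [Prod.ext_iff, Prod.fst_neg, Prod.snd_neg] at e'
           exact absurd (Prod.ext (by simp only [Prod.fst_zero]; omega) (by simp only [Prod.snd_zero]; omega)) hv)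
    · intro v
      obtain ⟨J, hJ, hn', hcl⟩ := h.exists_ideal_of_point hC hn v.2
      have e1 := hg ⟨J, hn', hcl⟩
      rw [hJ, Ideal.span_singleton_eq_span_singleton] at e1
      obtain ⟨u, hu⟩ := e1
      rcases (D.isUnit_iff u).mp u.isUnit with hu' | hu'
      · refine ⟨(⟨J, hn', hcl⟩, true), Subtype.ext (h.point_injective ?_)⟩
        simp only [Φ, if_true]
        rw [← hu, hu', mul_one]
      · refine ⟨(⟨J, hn', hcl⟩, false), Subtype.ext (h.point_injective ?_)⟩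
        simp only [Φ, Bool.false_eq_true, if_false]
        rw [hpneg, ← hu, hu', mul_neg, mul_one, neg_neg]
  rw [BinForm.repCount, ← Nat.card_congr (Equiv.ofBijective Φ hbij), Nat.card_prod, mul_comm]
  simp

theorem IsNormalForm.exists_transfer {I' P : Ideal (𝓞 K)} {k' a' : ℕ} {b' : ℤ}
    (h : D.IsNormalForm I k a b) (h' : D.IsNormalForm I' k' a' b')
    {x y : 𝓞 K} (hy : y ≠ 0)
    (hxy : Ideal.span {x} * I' = Ideal.span {y} * (I * (D.conjIdeal P * D.conjIdeal P))) :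
    ∃ w₁ w₂ : ℤ × ℤ,
      (∀ v : ℤ × ℤ, h.form.eval (v.1 • w₁ + v.2 • w₂) =
        (Ideal.absNorm P : ℤ) ^ 2 * h'.form.eval v) ∧
      ∀ w : ℤ × ℤ, ∃ v : ℤ × ℤ, v.1 • w₁ + v.2 • w₂ = ((Ideal.absNorm P : ℤ) ^ 2) • w := by
  have hR : Ideal.absNorm (D.conjIdeal P * D.conjIdeal P) = Ideal.absNorm P ^ 2 := by
    rw [map_mul, D.absNorm_conjIdeal, pow_two]
  have hex : ∀ v, ∃ w, x * h'.point v = y * h.point w := fun v => by
    have h1 : x * h'.point v ∈ Ideal.span {x} * I' :=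
      Ideal.mul_mem_mul (Ideal.mem_span_singleton_self x) (h'.point_mem v)
    rw [hxy] at h1
    obtain ⟨z, hz, hz'⟩ := Ideal.mem_span_singleton_mul.mp h1
    have hzI : z ∈ I := (Ideal.mul_le_left : I * _ ≤ I) hz
    obtain ⟨w, rfl⟩ := h.exists_point hzI
    exact ⟨w, hz'.symm⟩
  obtain ⟨w₁, hw₁⟩ := hex (1, 0)
  obtain ⟨w₂, hw₂⟩ := hex (0, 1)
  have hT : ∀ v : ℤ × ℤ, x * h'.point v = y * h.point (v.1 • w₁ + v.2 • w₂) := fun v => by
    conv_lhs => rw [show v = v.1 • ((1, 0) : ℤ × ℤ) + v.2 • ((0, 1) : ℤ × ℤ) by simp]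
    simp only [h.point_add, h'.point_add, h.point_smul, h'.point_smul]
    linear_combination (v.1 : 𝓞 K) * hw₁ + (v.2 : 𝓞 K) * hw₂
  refine ⟨w₁, w₂, fun v => ?_, fun w => ?_⟩
  · have e1 := congrArg (Algebra.norm ℤ) (hT v)
    rw [map_mul, map_mul, h.norm_point, h'.norm_point] at e1
    have e2 := congrArg (fun J => (Ideal.absNorm J : ℤ)) hxy
    simp only [map_mul, Ideal.absNorm_span_singleton, Nat.cast_mul,
      Int.natAbs_of_nonneg (D.norm_nonneg _), D.absNorm_conjIdeal] at e2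
    have hne : Algebra.norm ℤ y * (Ideal.absNorm I : ℤ) ≠ 0 :=
      mul_ne_zero (Algebra.norm_ne_zero_iff.mpr hy)
        (Int.natCast_ne_zero.mpr fun e => h.ne_bot (Ideal.absNorm_eq_zero_iff.mp e))
    refine mul_left_cancel₀ hne ?_
    linear_combination -e1 + h'.form.eval v * e2
  · have h1 : y * h.point (((Ideal.absNorm P : ℤ) ^ 2) • w) ∈ Ideal.span {x} * I' := by
      rw [hxy, h.point_smul, mul_comm _ (h.point w)]
      refine Ideal.mul_mem_mul (Ideal.mem_span_singleton_self y)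
        (Ideal.mul_mem_mul (h.point_mem w) ?_)
      have := Ideal.absNorm_mem (D.conjIdeal P * D.conjIdeal P)
      rw [hR] at this
      push_cast at this ⊢
      exact this
    obtain ⟨z, hz, hz'⟩ := Ideal.mem_span_singleton_mul.mp h1
    obtain ⟨v, rfl⟩ := h'.exists_point hz
    exact ⟨v, h.point_injective (mul_left_cancel₀ hy ((hT v).symm.trans hz'))⟩

end FieldData

theorem BinForm.gauss_eq_of_scaled {d : ℕ} (Q Q' : BinForm d) {c p : ℕ} [NeZero c]
    (hp : Nat.Coprime p c) {w₁ w₂ : ℤ × ℤ}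
    (hnorm : ∀ v : ℤ × ℤ, Q.eval (v.1 • w₁ + v.2 • w₂) = (p : ℤ) ^ 2 * Q'.eval v)
    (hS : ∀ w : ℤ × ℤ, ∃ v : ℤ × ℤ, v.1 • w₁ + v.2 • w₂ = ((p : ℤ) ^ 2) • w) (e : ℤ) :
    Q'.gauss c e 0 = Q.gauss c e 0 := by
  set q : ZMod c := ((p : ZMod c))⁻¹
  have hq : q * (p : ZMod c) = 1 := ZMod.inv_mul_of_unit _ ((ZMod.isUnit_iff_coprime p c).mpr hp)
  let f : ZMod c × ZMod c → ZMod c × ZMod c := fun r =>
    (q * (r.1 * (w₁.1 : ZMod c) + r.2 * (w₂.1 : ZMod c)),
      q * (r.1 * (w₁.2 : ZMod c) + r.2 * (w₂.2 : ZMod c)))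
  have hlift : ∀ r : ZMod c × ZMod c, ∃ v : ℤ × ℤ, r = ((v.1 : ZMod c), (v.2 : ZMod c)) := fun r => by
    obtain ⟨u, hu⟩ := ZMod.intCast_surjective r.1
    obtain ⟨u', hu'⟩ := ZMod.intCast_surjective r.2
    exact ⟨(u, u'), by rw [hu, hu']⟩
  refine BinForm.gauss_eq_of_bijective _ _ e e (T := f) ?_ fun r => ?_
  · have hsurj : Function.Surjective f := fun r => by
      obtain ⟨w, rfl⟩ := hlift r
      obtain ⟨v, hv⟩ := hS w
      refine ⟨(q * (v.1 : ZMod c), q * (v.2 : ZMod c)), ?_⟩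
      have e1 := congrArg (fun z : ℤ × ℤ => ((z.1 : ZMod c), (z.2 : ZMod c))) hv
      simp only [Prod.smul_fst, Prod.smul_snd, Prod.fst_add, Prod.snd_add, smul_eq_mul,
        Int.cast_mul, Int.cast_add, Int.cast_pow, Int.cast_natCast, Prod.mk.injEq] at e1
      simp only [f, Prod.mk.injEq]
      constructor
      · linear_combination q ^ 2 * e1.1 + (w.1 : ZMod c) * (q * (p : ZMod c) + 1) * hq
      · linear_combination q ^ 2 * e1.2 + (w.2 : ZMod c) * (q * (p : ZMod c) + 1) * hq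
    exact ⟨Finite.injective_iff_surjective.mpr hsurj, hsurj⟩
  · obtain ⟨v, rfl⟩ := hlift r
    congr 1
    have e1 := congrArg (Int.cast : ℤ → ZMod c) (hnorm v)
    simp only [BinForm.eval, Prod.smul_fst, Prod.smul_snd, Prod.fst_add, Prod.snd_add,
      smul_eq_mul, Int.cast_mul, Int.cast_add, Int.cast_pow, Int.cast_ofNat, Int.cast_natCast] at e1
    simp only [BinForm.evalMod, f]
    linear_combination (-((Q'.A : ZMod c) * (v.1 : ZMod c) ^ 2 +
      2 * (Q'.B : ZMod c) * (v.1 : ZMod c) * (v.2 : ZMod c) +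
      (Q'.C : ZMod c) * (v.2 : ZMod c) ^ 2) * (q * (p : ZMod c) + 1)) * hq - q ^ 2 * e1

namespace FieldData

variable {m : ℕ} {K : Type} [Field K] [NumberField K] {D : FieldData m K}
  {I : Ideal (𝓞 K)} {k a : ℕ} {b : ℤ}

theorem IsNormalForm.exists_class_coprime {I : (Ideal (𝓞 K))⁰}
    (h : D.IsNormalForm (I : Ideal (𝓞 K)) k a b) {C : ClassGroup (𝓞 K)}
    (hC : ClassGroup.mk0 I = C⁻¹) {c : ℕ} (hc : c ≠ 0) :
    ∃ J : (Ideal (𝓞 K))⁰, ClassGroup.mk0 J = C ∧
      Nat.Coprime (Ideal.absNorm (J : Ideal (𝓞 K))) c := by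
  obtain ⟨v, hv⟩ := h.form.exists_rep_coprime (squarefree_two_mul D.odd D.sqfree)
    (dvd_mul_right 2 m) (c := 2 * c) (by omega)
  have h0 : (0 : ℤ) ≤ h.form.eval v := by
    have hN := D.norm_nonneg (h.point v)
    rw [h.norm_point] at hN
    refine nonneg_of_mul_nonneg_right hN ?_
    exact_mod_cast Nat.pos_of_ne_zero (Ideal.absNorm_ne_zero_iff_mem_nonZeroDivisors.mpr I.2)
  obtain ⟨n, hn⟩ : ∃ n : ℕ, h.form.eval v = (n : ℤ) := ⟨_, (Int.toNat_of_nonneg h0).symm⟩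
  rw [hn, Int.isCoprime_iff_gcd_eq_one, Int.gcd_natCast_natCast] at hv
  have hn0 : 0 < n := Nat.pos_of_ne_zero fun e => by subst e; simp at hv
  obtain ⟨J, -, hJ, hJC⟩ := h.exists_ideal_of_point hC hn0 hn
  exact ⟨J, hJC, hJ ▸ (Nat.Coprime.coprime_mul_left_right hv)⟩

end FieldData

end Fermat.Agent.TwoAdic.Theta
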