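import Fermat.Agent.TwoAdic.Theta.Defs
import Mathlib.RingTheory.Trace.Basic
import Mathlib.RingTheory.Norm.Transitivity
import Mathlib.LinearAlgebra.FiniteDimensional.Lemmas
import Mathlib.RingTheory.IntegralClosure.IntegrallyClosed
import Mathlib.NumberTheory.NumberField.Basic
import Mathlib.LinearAlgebra.Matrix.Determinant.Basic

/-!
# The ring of integers of `ℚ(√(-2m))` for `m` odd and squarefree

`FieldData m K` records a square root `θ` of `-2m` in `𝓞 K` with `𝓞 K = ℤ ⊕ ℤθ`.
-/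

set_option autoImplicit false

noncomputable section

namespace Fermat.Agent.TwoAdic.Theta

open scoped NumberField

/-- A square root of `-2m` generating the ring of integers, with the hypotheses on `m`. -/
structure FieldData (m : ℕ) (K : Type) [Field K] [NumberField K] where
  odd : Odd m
  sqfree : Squarefree m
  θ : 𝓞 K
  sq : θ ^ 2 = -(2 * (m : 𝓞 K))
  bij : Function.Bijective fun v : ℤ × ℤ => (v.1 : 𝓞 K) + (v.2 : 𝓞 K) * θ

theorem squarefree_two_mul {m : ℕ} (hm : Odd m) (hsq : Squarefree m) : Squarefree (2 * m) := by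
  refine Nat.squarefree_mul_iff.mpr ⟨?_, Nat.squarefree_two, hsq⟩
  exact (Nat.coprime_two_left).mpr hm

section Construct

variable {m : ℕ} {K : Type} [Field K] [NumberField K]

theorem isInt_of_two_mul_sq (hm : Odd m) (hsq : Squarefree m) {t : ℚ} {k : ℤ}
    (h : (2 * m : ℚ) * t ^ 2 = k) : ∃ v : ℤ, t = v := by
  refine ⟨t.num, ?_⟩
  have hd : (t.den : ℚ) ≠ 0 := by exact_mod_cast t.den_nz
  have e : (2 * m : ℤ) * t.num ^ 2 = k * (t.den : ℤ) ^ 2 := by
    have ht := Rat.num_div_den t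
    rw [← ht] at h
    field_simp at h
    exact_mod_cast (by rw [h]; ring : (2 * m : ℚ) * (t.num : ℚ) ^ 2 = k * (t.den : ℚ) ^ 2)
  have h1 : (t.den ^ 2 : ℕ) ∣ 2 * m * t.num.natAbs ^ 2 := by
    refine ⟨k.natAbs, ?_⟩
    have := congrArg Int.natAbs e
    simp only [Int.natAbs_mul, Int.natAbs_pow, Int.natAbs_natCast] at this
    simpa [mul_comm] using this
  have h2 : t.den ^ 2 ∣ 2 * m :=
    (Nat.Coprime.pow 2 2 t.reduced.symm).dvd_of_dvd_mul_right h1
  have h3 : IsUnit t.den := squarefree_two_mul hm hsq _ (by rw [← sq]; exact h2)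
  exact ((Rat.den_eq_one_iff t).mp (Nat.isUnit_iff.mp h3)).symm

theorem exists_fieldData (hm : Odd m) (hsq : Squarefree m) (hK : Module.finrank ℚ K = 2) (th : K)
    (hth : th ^ 2 = -(2 * (m : K))) : ∃ D : FieldData m K, (D.θ : K) = th := by
  classical
  have hm0 : 0 < m := hm.pos
  have hli : LinearIndependent ℚ ![(1 : K), th] := by
    rw [LinearIndependent.pair_iff]
    intro s t hst
    simp only [Rat.smul_def, mul_one] at hst
    by_cases ht : t = 0
    · subst ht; simpa using hst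
    · exfalso
      have hth' : th = ((-s / t : ℚ) : K) := by
        push_cast
        rw [eq_div_iff (by exact_mod_cast ht)]
        linear_combination hst
      rw [hth'] at hth
      have : (-s / t : ℚ) ^ 2 = -(2 * (m : ℚ)) := by exact_mod_cast hth
      nlinarith [sq_nonneg (-s / t : ℚ), show (0 : ℚ) < m by exact_mod_cast hm0]
  let b : Module.Basis (Fin 2) ℚ K :=
    basisOfLinearIndependentOfCardEqFinrank hli (by simp [hK])
  have hb : ∀ i, b i = ![(1 : K), th] i := fun i => by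
    simp [b, coe_basisOfLinearIndependentOfCardEqFinrank]
  have hθ : IsIntegral ℤ th := by
    refine IsIntegral.of_pow (n := 2) two_pos ?_
    rw [hth]
    simpa using (isIntegral_algebraMap (R := ℤ) (A := K) (x := -(2 * (m : ℤ))))
  let θ : 𝓞 K := ⟨th, hθ⟩
  have hθK : (θ : K) = th := rfl
  refine ⟨⟨hm, hsq, θ, ?_, ?_⟩, rfl⟩
  · ext; simp [hθK, hth, map_ofNat]
  refine ⟨?_, ?_⟩
  · rintro ⟨x, y⟩ ⟨x', y'⟩ h
    have h' : (x : K) + (y : K) * th = x' + y' * th := by
      simpa [hθK] using congrArg (fun z : 𝓞 K => (z : K)) h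
    have := LinearIndependent.pair_iff.mp hli ((x : ℚ) - x') ((y : ℚ) - y')
      (by simp only [Rat.smul_def]; push_cast; linear_combination h')
    have h1 : (x : ℚ) = x' := sub_eq_zero.mp this.1
    have h2 : (y : ℚ) = y' := sub_eq_zero.mp this.2
    simp [Int.cast_inj.mp h1, Int.cast_inj.mp h2]
  intro z
  obtain ⟨r, s, hrs⟩ : ∃ r s : ℚ, (z : K) = (r : K) + (s : K) * th := by
    refine ⟨b.repr (z : K) 0, b.repr (z : K) 1, ?_⟩
    have := b.sum_repr (z : K)
    rw [Fin.sum_univ_two, hb, hb] at this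
    simpa [Rat.smul_def] using this.symm
  have hM : Algebra.leftMulMatrix b (z : K) = !![r, -(2 * m) * s; s, r] := by
    ext i j
    rw [Algebra.leftMulMatrix_eq_repr_mul]
    have hc : (z : K) * b j = ∑ i, (!![r, -(2 * m) * s; s, r] : Matrix (Fin 2) (Fin 2) ℚ) i j • b i := by
      fin_cases j <;> simp [Fin.sum_univ_two, hb, Rat.smul_def, hrs] <;>
        linear_combination (s : K) * hth
    rw [hc, b.repr_sum_self]
  have hz : IsIntegral ℤ (z : K) := z.2
  obtain ⟨u, hu⟩ : ∃ u : ℤ, 2 * r = u := by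
    have : IsIntegral ℤ (Algebra.trace ℚ K (z : K)) := Algebra.isIntegral_trace hz
    obtain ⟨u, hu⟩ := IsIntegrallyClosed.isIntegral_iff.mp this
    refine ⟨u, ?_⟩
    rw [Algebra.trace_eq_matrix_trace b, hM] at hu
    simp [Matrix.trace_fin_two] at hu
    linarith
  obtain ⟨n, hn⟩ : ∃ n : ℤ, r ^ 2 + 2 * m * s ^ 2 = n := by
    have : IsIntegral ℤ (Algebra.norm ℚ (z : K)) := Algebra.isIntegral_norm ℚ hz
    obtain ⟨n, hn⟩ := IsIntegrallyClosed.isIntegral_iff.mp this
    refine ⟨n, ?_⟩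
    rw [Algebra.norm_eq_matrix_det b, hM, Matrix.det_fin_two_of] at hn
    simp at hn
    linear_combination -hn
  obtain ⟨v, hv⟩ : ∃ v : ℤ, 2 * s = v :=
    isInt_of_two_mul_sq hm hsq (k := 4 * n - u ^ 2) (by push_cast; rw [← hu, ← hn]; ring)
  have e : u ^ 2 + 2 * (m : ℤ) * v ^ 2 = 4 * n := by
    have : (u : ℚ) ^ 2 + 2 * m * (v : ℚ) ^ 2 = 4 * n := by rw [← hu, ← hv, ← hn]; ring
    exact_mod_cast this
  obtain ⟨u', rfl⟩ : Even u := by
    refine (Int.even_pow' (n := 2) (by norm_num)).mp ⟨2 * n - (m : ℤ) * v ^ 2, ?_⟩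
    linarith
  obtain ⟨v', rfl⟩ : Even v := by
    have h2 : Even ((m : ℤ) * v ^ 2) := ⟨n - u' ^ 2, by linarith [e, sq u', sq (u' + u')]⟩
    rcases Int.even_mul.mp h2 with h | h
    · exact absurd h (Int.not_even_iff_odd.mpr (by exact_mod_cast hm))
    · exact (Int.even_pow' (n := 2) (by norm_num)).mp h
  refine ⟨(u', v'), ?_⟩
  ext
  push_cast at hu hv
  simp only [map_add, map_mul, map_intCast, hθK, hrs]
  rw [show r = u' by linarith, show s = v' by linarith]
  simp

end Construct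

namespace FieldData

variable {m : ℕ} {K : Type} [Field K] [NumberField K] (D : FieldData m K)

/-- The element `x + y θ`. -/
def elt (x y : ℤ) : 𝓞 K := (x : 𝓞 K) + (y : 𝓞 K) * D.θ

theorem elt_inj {x y x' y' : ℤ} : D.elt x y = D.elt x' y' ↔ x = x' ∧ y = y' :=
  ⟨fun h => Prod.ext_iff.mp (D.bij.1 (a₁ := (x, y)) (a₂ := (x', y')) h),
    fun h => by rw [h.1, h.2]⟩

theorem exists_elt (z : 𝓞 K) : ∃ x y, z = D.elt x y :=
  (D.bij.2 z).elim fun v hv => ⟨v.1, v.2, hv.symm⟩

theorem elt_zero : D.elt 0 0 = 0 := by simp [elt]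

theorem elt_eq_zero {x y : ℤ} : D.elt x y = 0 ↔ x = 0 ∧ y = 0 := by
  rw [← D.elt_zero, elt_inj]

theorem elt_int (n : ℤ) : D.elt n 0 = (n : 𝓞 K) := by simp [elt]

theorem elt_nat (n : ℕ) : D.elt n 0 = (n : 𝓞 K) := by simp [elt]

theorem elt_add (x y x' y' : ℤ) : D.elt x y + D.elt x' y' = D.elt (x + x') (y + y') := by
  simp only [elt]; push_cast; ring

theorem elt_neg (x y : ℤ) : -D.elt x y = D.elt (-x) (-y) := by simp only [elt]; push_cast; ring

theorem smul_elt (n x y : ℤ) : n • D.elt x y = D.elt (n * x) (n * y) := by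
  simp only [elt, zsmul_eq_mul]; push_cast; ring

theorem int_mul_elt (n x y : ℤ) : (n : 𝓞 K) * D.elt x y = D.elt (n * x) (n * y) := by
  simp only [elt]; push_cast; ring

theorem elt_mul (x y x' y' : ℤ) :
    D.elt x y * D.elt x' y' = D.elt (x * x' - 2 * m * (y * y')) (x * y' + y * x') := by
  simp only [elt]; push_cast
  linear_combination (y : 𝓞 K) * (y' : 𝓞 K) * D.sq

/-- The integral basis `1, θ`. -/
def basis : Module.Basis (Fin 2) ℤ (𝓞 K) :=
  Module.Basis.ofEquivFun <| LinearEquiv.symm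
    { toFun := fun v : Fin 2 → ℤ => D.elt (v 0) (v 1)
      map_add' := fun v w => (D.elt_add _ _ _ _).symm
      map_smul' := fun n v => (D.smul_elt n _ _).symm
      invFun := fun z => ![(Equiv.ofBijective _ D.bij).symm z |>.1,
        (Equiv.ofBijective _ D.bij).symm z |>.2]
      left_inv := fun v => by
        have h : (Equiv.ofBijective _ D.bij).symm (D.elt (v 0) (v 1)) = (v 0, v 1) :=
          (Equiv.ofBijective _ D.bij).symm_apply_apply (v 0, v 1)
        ext i; fin_cases i <;> simp [h]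
      right_inv := fun z => (Equiv.ofBijective _ D.bij).apply_symm_apply z }

theorem basis_repr (x y : ℤ) (i : Fin 2) : D.basis.repr (D.elt x y) i = ![x, y] i := by
  have h : (Equiv.ofBijective _ D.bij).symm (D.elt x y) = (x, y) :=
    (Equiv.ofBijective _ D.bij).symm_apply_apply (x, y)
  change ![_, _] i = _
  rw [h]

theorem basis_apply (i : Fin 2) : D.basis i = ![D.elt 1 0, D.elt 0 1] i := by
  apply D.basis.repr.injective
  ext j
  fin_cases i <;> fin_cases j <;> simp [basis_repr]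

theorem norm_elt (x y : ℤ) : Algebra.norm ℤ (D.elt x y) = x ^ 2 + 2 * m * y ^ 2 := by
  have hM : Algebra.leftMulMatrix D.basis (D.elt x y) = !![x, -(2 * m) * y; y, x] := by
    ext i j
    rw [Algebra.leftMulMatrix_eq_repr_mul]
    fin_cases i <;> fin_cases j <;> simp [basis_apply, elt_mul, basis_repr] <;> ring
  rw [Algebra.norm_eq_matrix_det D.basis, hM, Matrix.det_fin_two_of]
  ring

include D in
theorem norm_nonneg (z : 𝓞 K) : 0 ≤ Algebra.norm ℤ z := by
  obtain ⟨x, y, rfl⟩ := D.exists_elt z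
  rw [D.norm_elt]; positivity

include D in
theorem isUnit_iff (z : 𝓞 K) : IsUnit z ↔ z = 1 ∨ z = -1 := by
  refine ⟨fun h => ?_, fun h => by rcases h with rfl | rfl <;> simp⟩
  obtain ⟨x, y, rfl⟩ := D.exists_elt z
  have h1 : IsUnit (Algebra.norm ℤ (D.elt x y)) := h.map _
  rw [D.norm_elt, Int.isUnit_iff] at h1
  have hm := D.odd.pos
  have hy : y = 0 := by
    by_contra hy
    have h2 : 0 < y ^ 2 := by positivity
    have : (2 : ℤ) ≤ 2 * m * y ^ 2 := by nlinarith [show (1 : ℤ) ≤ m by omega]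
    rcases h1 with h1 | h1 <;> nlinarith [sq_nonneg x]
  subst hy
  rcases h1 with h1 | h1
  · have : x = 1 ∨ x = -1 := sq_eq_one_iff.mp (by linarith)
    rcases this with rfl | rfl <;> simp [elt]
  · nlinarith [sq_nonneg x]

/-- The coordinates of an element. -/
def coord (z : 𝓞 K) : ℤ × ℤ := (Equiv.ofBijective _ D.bij).symm z

theorem coord_elt (x y : ℤ) : D.coord (D.elt x y) = (x, y) :=
  (Equiv.ofBijective _ D.bij).symm_apply_apply (x, y)

/-- Conjugation. -/
def conj : 𝓞 K ≃+* 𝓞 K where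
  toFun z := D.elt (D.coord z).1 (-(D.coord z).2)
  invFun z := D.elt (D.coord z).1 (-(D.coord z).2)
  left_inv z := by
    obtain ⟨x, y, rfl⟩ := D.exists_elt z
    simp [coord_elt]
  right_inv z := by
    obtain ⟨x, y, rfl⟩ := D.exists_elt z
    simp [coord_elt]
  map_mul' z w := by
    obtain ⟨x, y, rfl⟩ := D.exists_elt z
    obtain ⟨x', y', rfl⟩ := D.exists_elt w
    simp only [elt_mul, coord_elt, elt_inj]
    constructor <;> ring
  map_add' z w := by
    obtain ⟨x, y, rfl⟩ := D.exists_elt z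
    obtain ⟨x', y', rfl⟩ := D.exists_elt w
    simp only [elt_add, coord_elt, elt_inj]
    exact ⟨trivial, by ring⟩

theorem conj_elt (x y : ℤ) : D.conj (D.elt x y) = D.elt x (-y) := by
  change D.elt _ (-_) = _
  rw [coord_elt]

theorem conj_conj (z : 𝓞 K) : D.conj (D.conj z) = z := by
  obtain ⟨x, y, rfl⟩ := D.exists_elt z
  simp [conj_elt]

end FieldData

end Fermat.Agent.TwoAdic.Theta
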