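import Fermat.Agent.TwoAdic.Theta.Field.Basic
import Mathlib.RingTheory.PrincipalIdealDomain

/-!
# Ideals of `ℤ[√(-2m)]`

Every nonzero ideal is `k (aℤ + (b + θ)ℤ)` with `a ∣ b² + 2m`; conjugation multiplies an ideal
to the principal ideal generated by its norm.
-/

set_option autoImplicit false

noncomputable section

namespace Fermat.Agent.TwoAdic.Theta

open scoped NumberField

namespace FieldData

variable {m : ℕ} {K : Type} [Field K] [NumberField K] (D : FieldData m K)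

/-- `I` is `k (aℤ + (b + θ)ℤ)`. -/
structure IsNormalForm (I : Ideal (𝓞 K)) (k a : ℕ) (b : ℤ) : Prop where
  k_pos : 0 < k
  a_pos : 0 < a
  dvd : (a : ℤ) ∣ b ^ 2 + 2 * m
  mem_iff : ∀ x y : ℤ, D.elt x y ∈ I ↔ (k : ℤ) ∣ y ∧ (k : ℤ) * a ∣ x - b * y

theorem exists_normalForm {I : Ideal (𝓞 K)} (hI : I ≠ ⊥) :
    ∃ (k a : ℕ) (b : ℤ), D.IsNormalForm I k a b := by
  let M : Ideal ℤ :=
    { carrier := {y | ∃ x, D.elt x y ∈ I}
      zero_mem' := ⟨0, by rw [D.elt_zero]; exact I.zero_mem⟩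
      add_mem' := fun ⟨x, hx⟩ ⟨x', hx'⟩ => ⟨x + x', by rw [← D.elt_add]; exact I.add_mem hx hx'⟩
      smul_mem' := fun n y ⟨x, hx⟩ => ⟨n * x, by
        rw [smul_eq_mul, ← D.int_mul_elt]; exact I.mul_mem_left _ hx⟩ }
  obtain ⟨k₀, hk₀⟩ := (IsPrincipalIdealRing.principal M).principal
  obtain ⟨n₀, hn₀⟩ := (IsPrincipalIdealRing.principal (I.comap (algebraMap ℤ (𝓞 K)))).principal
  have hM : ∀ y, (∃ x, D.elt x y ∈ I) ↔ (k₀.natAbs : ℤ) ∣ y := fun y => by
    rw [Int.natAbs_dvd, ← Ideal.mem_span_singleton, Ideal.span, ← hk₀]; rfl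
  have hN : ∀ x, D.elt x 0 ∈ I ↔ (n₀.natAbs : ℤ) ∣ x := fun x => by
    rw [Int.natAbs_dvd, ← Ideal.mem_span_singleton, Ideal.span, ← hn₀, Ideal.mem_comap, D.elt_int]
    rfl
  set k := k₀.natAbs with hk
  set n := n₀.natAbs with hn
  have hn0 : n ≠ 0 := by
    intro h0
    have h := (hN (Ideal.absNorm I)).mp (by rw [D.elt_int, Int.cast_natCast]; exact Ideal.absNorm_mem I)
    rw [h0, Nat.cast_zero, zero_dvd_iff] at h
    exact hI (Ideal.absNorm_eq_zero_iff.mp (by exact_mod_cast h))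
  obtain ⟨b₀, hb₀⟩ := (hM k).mpr dvd_rfl
  have hθn : D.elt 0 1 * D.elt (n : ℤ) 0 ∈ I := I.mul_mem_left _ ((hN n).mpr dvd_rfl)
  rw [D.elt_mul] at hθn
  have hkn : (k : ℤ) ∣ n := by
    simpa using (hM _).mp ⟨_, hθn⟩
  have hk0 : k ≠ 0 := by
    intro h0
    rw [h0, Nat.cast_zero, zero_dvd_iff] at hkn
    exact hn0 (by exact_mod_cast hkn)
  have hθb : D.elt 0 1 * D.elt b₀ k ∈ I := I.mul_mem_left _ hb₀
  rw [D.elt_mul] at hθb
  obtain ⟨b, rfl⟩ : (k : ℤ) ∣ b₀ := by simpa using (hM _).mp ⟨_, hθb⟩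
  obtain ⟨a, ha⟩ : k ∣ n := Int.natCast_dvd_natCast.mp hkn
  have hmem : ∀ x y : ℤ, D.elt x y ∈ I ↔ (k : ℤ) ∣ y ∧ (k : ℤ) * a ∣ x - b * y := by
    intro x y
    constructor
    · intro h
      obtain ⟨v, rfl⟩ := (hM y).mp ⟨x, h⟩
      refine ⟨dvd_mul_right _ _, ?_⟩
      have h2 : D.elt x (k * v) - (v : 𝓞 K) * D.elt (k * b) k ∈ I :=
        I.sub_mem h (I.mul_mem_left _ hb₀)
      rw [D.int_mul_elt, sub_eq_add_neg, D.elt_neg, D.elt_add,
        show (k : ℤ) * v + -(v * k) = 0 by ring, hN, ha] at h2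
      push_cast at h2
      convert h2 using 1
      ring
    · rintro ⟨⟨v, rfl⟩, w, hw⟩
      have h2 : (v : 𝓞 K) * D.elt (k * b) k + (w : 𝓞 K) * D.elt (n : ℤ) 0 ∈ I :=
        I.add_mem (I.mul_mem_left _ hb₀) (I.mul_mem_left _ ((hN n).mpr dvd_rfl))
      rw [D.int_mul_elt, D.int_mul_elt, D.elt_add] at h2
      convert h2 using 2
      · rw [ha]; push_cast; linear_combination hw
      · ring
  refine ⟨k, a, b, Nat.pos_of_ne_zero hk0, Nat.pos_of_ne_zero ?_, ?_, hmem⟩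
  · rintro rfl; exact hn0 (by simpa using ha)
  have h3 : D.elt 0 1 * D.elt (k * b) k ∈ I := I.mul_mem_left _ hb₀
  rw [D.elt_mul, hmem] at h3
  obtain ⟨w, hw⟩ := h3.2
  refine ⟨-w, mul_left_cancel₀ (Int.natCast_ne_zero.mpr hk0) ?_⟩
  linear_combination -hw

variable {D}

theorem IsNormalForm.mem_elt {I : Ideal (𝓞 K)} {k a : ℕ} {b : ℤ} (h : D.IsNormalForm I k a b)
    (u v : ℤ) : D.elt (k * (u * a + v * b)) (k * v) ∈ I :=
  (h.mem_iff _ _).mpr ⟨dvd_mul_right _ _, u, by ring⟩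

theorem IsNormalForm.exists_coords {I : Ideal (𝓞 K)} {k a : ℕ} {b : ℤ}
    (h : D.IsNormalForm I k a b) {z : 𝓞 K} (hz : z ∈ I) :
    ∃ u v : ℤ, z = D.elt (k * (u * a + v * b)) (k * v) := by
  obtain ⟨x, y, rfl⟩ := D.exists_elt z
  obtain ⟨⟨v, rfl⟩, u, hu⟩ := (h.mem_iff x y).mp hz
  exact ⟨u, v, (D.elt_inj).mpr ⟨by linear_combination hu, rfl⟩⟩

/-- The coordinates of an ideal in normal form. -/
def IsNormalForm.equiv {I : Ideal (𝓞 K)} {k a : ℕ} {b : ℤ} (h : D.IsNormalForm I k a b) :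
    (Fin 2 → ℤ) ≃ₗ[ℤ] I :=
  LinearEquiv.ofBijective
    { toFun := fun w => (⟨D.elt (k * (w 0 * a + w 1 * b)) (k * w 1), h.mem_elt _ _⟩ : I)
      map_add' := fun w w' => Subtype.ext <| by
        simp only [Pi.add_apply, Submodule.coe_add, D.elt_add, D.elt_inj]
        constructor <;> ring
      map_smul' := fun n w => Subtype.ext <| by
        simp only [Pi.smul_apply, smul_eq_mul, RingHom.id_apply, SetLike.val_smul_of_tower,
          D.smul_elt, D.elt_inj]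
        constructor <;> ring }
    ⟨by
      intro w w' hww
      obtain ⟨h1, h2⟩ := D.elt_inj.mp (congrArg Subtype.val hww)
      have hk : (k : ℤ) ≠ 0 := Int.natCast_ne_zero.mpr h.k_pos.ne'
      have ha : (a : ℤ) ≠ 0 := Int.natCast_ne_zero.mpr h.a_pos.ne'
      have e1 := mul_left_cancel₀ hk h2
      have e0 := mul_left_cancel₀ hk h1
      rw [e1, add_left_inj] at e0
      funext i
      fin_cases i
      exacts [mul_right_cancel₀ ha e0, e1],
    fun z => by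
      obtain ⟨u, v, huv⟩ := h.exists_coords z.2
      exact ⟨![u, v], Subtype.ext (by simpa using huv.symm)⟩⟩

theorem IsNormalForm.absNorm_eq {I : Ideal (𝓞 K)} {k a : ℕ} {b : ℤ} (h : D.IsNormalForm I k a b) :
    Ideal.absNorm I = k ^ 2 * a := by
  rw [← Ideal.natAbs_det_basis_change D.basis I (Module.Basis.ofEquivFun h.equiv.symm)]
  rw [Module.Basis.det_apply, Matrix.det_fin_two]
  simp only [Module.Basis.toMatrix_apply, Function.comp_apply, Module.Basis.coe_ofEquivFun,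
    LinearEquiv.symm_symm]
  rw [show ((h.equiv (Pi.single 0 1) : I) : 𝓞 K) = D.elt (k * (1 * a + 0 * b)) (k * 0) from rfl,
    show ((h.equiv (Pi.single 1 1) : I) : 𝓞 K) = D.elt (k * (0 * a + 1 * b)) (k * 1) from rfl]
  simp [basis_repr, Int.natAbs_mul]
  ring

theorem IsNormalForm.ne_bot {I : Ideal (𝓞 K)} {k a : ℕ} {b : ℤ} (h : D.IsNormalForm I k a b) :
    I ≠ ⊥ := by
  intro e
  have h2 := h.absNorm_eq
  rw [e, Ideal.absNorm_bot] at h2
  have := mul_pos (pow_pos h.k_pos 2) h.a_pos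
  omega

variable (D)

theorem exists_ideal {a : ℕ} (ha : 0 < a) {b : ℤ} (h : (a : ℤ) ∣ b ^ 2 + 2 * m) :
    ∃ I : Ideal (𝓞 K), D.IsNormalForm I 1 a b := by
  refine ⟨{ carrier := {z | (a : ℤ) ∣ (D.coord z).1 - b * (D.coord z).2}
            add_mem' := ?_, zero_mem' := ?_, smul_mem' := ?_ }, one_pos, ha, h, fun x y => ?_⟩
  · intro z w hz hw
    obtain ⟨x, y, rfl⟩ := D.exists_elt z
    obtain ⟨x', y', rfl⟩ := D.exists_elt w
    change (a : ℤ) ∣ _ at hz hw ⊢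
    rw [elt_add]
    simp only [coord_elt] at hz hw ⊢
    rw [show x + x' - b * (y + y') = (x - b * y) + (x' - b * y') by ring]
    exact dvd_add hz hw
  · simp [← D.elt_zero, coord_elt]
  · intro w z hz
    obtain ⟨x, y, rfl⟩ := D.exists_elt z
    obtain ⟨x', y', rfl⟩ := D.exists_elt w
    change (a : ℤ) ∣ _ at hz ⊢
    rw [smul_eq_mul, elt_mul]
    simp only [coord_elt] at hz ⊢
    rw [show x' * x - 2 * m * (y' * y) - b * (x' * y + y' * x) =
      (x' - b * y') * (x - b * y) - (y' * y) * (b ^ 2 + 2 * m) by ring]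
    exact dvd_sub (hz.mul_left _) (h.mul_left _)
  · simp [coord_elt]

/-- The conjugate ideal. -/
def conjIdeal (I : Ideal (𝓞 K)) : Ideal (𝓞 K) := I.comap D.conj.toRingHom

theorem mem_conjIdeal {I : Ideal (𝓞 K)} {z : 𝓞 K} : z ∈ D.conjIdeal I ↔ D.conj z ∈ I := Iff.rfl

theorem conjIdeal_conjIdeal (I : Ideal (𝓞 K)) : D.conjIdeal (D.conjIdeal I) = I := by
  ext z; simp [mem_conjIdeal, conj_conj]

theorem conjIdeal_bot : D.conjIdeal ⊥ = ⊥ := by
  ext z
  simp [mem_conjIdeal]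

theorem dvd_conjIdeal_iff {I J : Ideal (𝓞 K)} : I ∣ D.conjIdeal J ↔ D.conjIdeal I ∣ J := by
  rw [Ideal.dvd_iff_le, Ideal.dvd_iff_le]
  refine ⟨fun h z hz => h ?_, fun h z hz => ?_⟩
  · rw [mem_conjIdeal]
    change D.conj (D.conj z) ∈ J
    rwa [conj_conj]
  · have h2 : D.conj (D.conj z) ∈ I := h hz
    rwa [conj_conj] at h2

variable {D}

theorem IsNormalForm.conj {I : Ideal (𝓞 K)} {k a : ℕ} {b : ℤ} (h : D.IsNormalForm I k a b) :
    D.IsNormalForm (D.conjIdeal I) k a (-b) := by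
  refine ⟨h.k_pos, h.a_pos, by rw [neg_sq]; exact h.dvd, fun x y => ?_⟩
  rw [mem_conjIdeal, conj_elt, h.mem_iff, dvd_neg]
  ring_nf

include D in
theorem isCoprime_normalForm {a : ℕ} {b c : ℤ} (h : (a : ℤ) * c = b ^ 2 + 2 * m) :
    ∃ u v w : ℤ, u * a + v * (2 * b) + w * c = 1 := by
  have hg : Int.gcd (Int.gcd (a : ℤ) (2 * b) : ℤ) c = 1 := by
    rw [Nat.eq_one_iff_not_exists_prime_dvd]
    intro p hp hdvd
    have hpa : (p : ℤ) ∣ a := (Int.natCast_dvd_natCast.mpr hdvd).trans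
      ((Int.gcd_dvd_left _ _).trans (Int.gcd_dvd_left _ _))
    have hp2b : (p : ℤ) ∣ 2 * b := (Int.natCast_dvd_natCast.mpr hdvd).trans
      ((Int.gcd_dvd_left _ _).trans (Int.gcd_dvd_right _ _))
    have hpc : (p : ℤ) ∣ c := (Int.natCast_dvd_natCast.mpr hdvd).trans (Int.gcd_dvd_right _ _)
    have hpp : Prime (p : ℤ) := Nat.prime_iff_prime_int.mp hp
    have hb : (p : ℤ) ∣ b := by
      rcases hpp.dvd_or_dvd hp2b with h2 | h2
      · have h3 : (p : ℤ) ∣ b ^ 2 := by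
          have : b ^ 2 = a * c - 2 * m := by linarith
          rw [this]
          exact dvd_sub (hpa.mul_right c) (h2.mul_right _)
        exact hpp.dvd_of_dvd_pow h3
      · exact h2
    have h4 : (p : ℤ) * p ∣ ((2 * m : ℕ) : ℤ) := by
      have : ((2 * m : ℕ) : ℤ) = a * c - b * b := by push_cast; linarith [pow_two b]
      rw [this]
      exact dvd_sub (mul_dvd_mul hpa hpc) (mul_dvd_mul hb hb)
    rw [← Nat.cast_mul, Int.natCast_dvd_natCast] at h4
    exact hp.ne_one (Nat.isUnit_iff.mp (squarefree_two_mul D.odd D.sqfree p h4))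
  have e1 := Int.gcd_eq_gcd_ab (Int.gcd (a : ℤ) (2 * b) : ℤ) c
  have e2 := Int.gcd_eq_gcd_ab (a : ℤ) (2 * b)
  rw [hg, Nat.cast_one] at e1
  exact ⟨Int.gcdA (Int.gcd (a : ℤ) (2 * b)) c * Int.gcdA a (2 * b),
    Int.gcdA (Int.gcd (a : ℤ) (2 * b)) c * Int.gcdB a (2 * b),
    Int.gcdB (Int.gcd (a : ℤ) (2 * b)) c, by
      linear_combination -e1 - (Int.gcdA (Int.gcd (a : ℤ) (2 * b) : ℤ) c) * e2⟩

variable (D)

theorem absNorm_conjIdeal (I : Ideal (𝓞 K)) : Ideal.absNorm (D.conjIdeal I) = Ideal.absNorm I := by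
  rcases eq_or_ne I ⊥ with rfl | hI
  · rw [conjIdeal_bot]
  obtain ⟨k, a, b, h⟩ := D.exists_normalForm hI
  rw [h.absNorm_eq, h.conj.absNorm_eq]

theorem mul_conjIdeal (I : Ideal (𝓞 K)) :
    I * D.conjIdeal I = Ideal.span {(Ideal.absNorm I : 𝓞 K)} := by
  rcases eq_or_ne I ⊥ with rfl | hI
  · simp
  obtain ⟨k, a, b, h⟩ := D.exists_normalForm hI
  obtain ⟨c, hc⟩ := h.dvd
  obtain ⟨u, v, w, huvw⟩ := D.isCoprime_normalForm hc.symm
  have hN := h.absNorm_eq
  have hmem : (Ideal.absNorm I : 𝓞 K) ∈ I * D.conjIdeal I := by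
    have g1 := h.mem_elt 1 0
    have g2 := h.mem_elt 0 1
    have s1 := h.conj.mem_elt 1 0
    have s2 := h.conj.mem_elt 0 1
    have := (I * D.conjIdeal I).add_mem
      ((I * D.conjIdeal I).add_mem
        (Ideal.mul_mem_left _ (u : 𝓞 K) (Ideal.mul_mem_mul g1 s1))
        (Ideal.mul_mem_left _ (v : 𝓞 K)
          ((I * D.conjIdeal I).sub_mem (Ideal.mul_mem_mul g2 s1) (Ideal.mul_mem_mul g1 s2))))
      (Ideal.mul_mem_left _ ((-w : ℤ) : 𝓞 K) (Ideal.mul_mem_mul g2 s2))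
    convert this using 1
    rw [hN, ← Int.cast_natCast (R := 𝓞 K), ← D.elt_int]
    simp only [sub_eq_add_neg, elt_neg, elt_mul, elt_add, int_mul_elt, elt_inj]
    push_cast
    constructor
    · linear_combination (-((k : ℤ) ^ 2 * a)) * huvw - (w * (k : ℤ) ^ 2) * hc
    · ring
  obtain ⟨R, hR⟩ : I * D.conjIdeal I ∣ Ideal.span {(Ideal.absNorm I : 𝓞 K)} :=
    Ideal.dvd_iff_le.mpr ((Ideal.span_singleton_le_iff_mem _).mpr hmem)
  have hfin : Module.finrank ℤ (𝓞 K) = 2 := by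
    rw [Module.finrank_eq_card_basis D.basis, Fintype.card_fin]
  have h1 : Ideal.absNorm R = 1 := by
    have := congrArg Ideal.absNorm hR
    rw [Ideal.absNorm_span_natCast, hfin, map_mul, map_mul, absNorm_conjIdeal, pow_two] at this
    exact (mul_eq_left₀ (mul_ne_zero (fun e => hI (Ideal.absNorm_eq_zero_iff.mp e))
      (fun e => hI (Ideal.absNorm_eq_zero_iff.mp e)))).mp this.symm
  rw [hR, Ideal.absNorm_eq_one_iff.mp h1, Ideal.mul_top]

include D in
theorem absNorm_span_nat (n : ℕ) : Ideal.absNorm (Ideal.span {(n : 𝓞 K)}) = n ^ 2 := by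
  rw [Ideal.absNorm_span_natCast, Module.finrank_eq_card_basis D.basis, Fintype.card_fin]

include D in
theorem dvd_or_dvd_of_absNorm {p : ℕ} (hp : p.Prime) {P J : Ideal (𝓞 K)}
    (hP : Ideal.absNorm P = p) (hJ : p ∣ Ideal.absNorm J) : P ∣ J ∨ D.conjIdeal P ∣ J := by
  have hprime : Prime P := by
    refine Ideal.prime_of_isPrime (fun e => ?_) (Ideal.isPrime_of_irreducible_absNorm (hP ▸ hp))
    rw [e, Ideal.absNorm_bot] at hP
    exact hp.ne_zero hP.symm
  have : P ∣ J * D.conjIdeal J := by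
    rw [mul_conjIdeal, Ideal.dvd_iff_le, Ideal.span_singleton_le_iff_mem]
    obtain ⟨q, hq⟩ := hJ
    rw [hq, Nat.cast_mul]
    exact Ideal.mul_mem_right _ _ (hP ▸ Ideal.absNorm_mem P)
  exact (hprime.dvd_or_dvd this).imp id D.dvd_conjIdeal_iff.mp

include D in
theorem span_dvd_of_absNorm {p : ℕ} (hp : p.Prime)
    (hnone : ∀ P : Ideal (𝓞 K), Ideal.absNorm P ≠ p) {J : Ideal (𝓞 K)}
    (hJ : p ∣ Ideal.absNorm J) : Ideal.span {(p : 𝓞 K)} ∣ J := by
  rcases eq_or_ne J ⊥ with rfl | hJ0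
  · exact dvd_zero _
  obtain ⟨k, a, b, h⟩ := D.exists_normalForm hJ0
  rw [h.absNorm_eq] at hJ
  have hpk : p ∣ k := by
    rcases hp.dvd_mul.mp hJ with h1 | h1
    · exact hp.dvd_of_dvd_pow h1
    · obtain ⟨P, hP⟩ := D.exists_ideal hp.pos ((Int.natCast_dvd_natCast.mpr h1).trans h.dvd)
      exact absurd (by simpa using hP.absNorm_eq) (hnone P)
  rw [Ideal.dvd_iff_le]
  intro z hz
  obtain ⟨u, v, rfl⟩ := h.exists_coords hz
  obtain ⟨q, rfl⟩ := hpk
  rw [Ideal.mem_span_singleton]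
  refine ⟨D.elt (q * (u * a + v * b)) (q * v), ?_⟩
  rw [← Int.cast_natCast (R := 𝓞 K) p, int_mul_elt]
  push_cast
  rw [elt_inj]
  constructor <;> ring

theorem conjIdeal_eq_iff {p : ℕ} (hp : p.Prime) {P : Ideal (𝓞 K)} (hP : Ideal.absNorm P = p) :
    D.conjIdeal P = P ↔ p ∣ 2 * m := by
  have hP0 : P ≠ ⊥ := fun e => by
    rw [e, Ideal.absNorm_bot] at hP; exact hp.ne_zero hP.symm
  obtain ⟨k, a, b, h⟩ := D.exists_normalForm hP0
  rw [h.absNorm_eq] at hP
  have hk : k = 1 := by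
    by_contra hk
    have : k = p := (hp.eq_one_or_self_of_dvd k (by rw [← hP, pow_two, mul_assoc]; exact dvd_mul_right _ _)).resolve_left hk
    subst this
    have := Nat.le_mul_of_pos_right (k ^ 2) h.a_pos
    nlinarith [hp.two_le]
  subst hk
  obtain rfl : a = p := by simpa using hP
  have hab : (a : ℤ) ∣ 2 * b ↔ a ∣ 2 * m := by
    have hpp : Prime (a : ℤ) := Nat.prime_iff_prime_int.mp hp
    rw [← Int.natCast_dvd_natCast, Nat.cast_mul, Nat.cast_ofNat]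
    constructor
    · intro h2
      rcases hpp.dvd_or_dvd h2 with h3 | h3
      · exact h3.mul_right _
      · have := dvd_sub h.dvd (dvd_pow h3 two_ne_zero)
        simpa using this
    · intro h2
      have : (a : ℤ) ∣ b ^ 2 := by
        have := dvd_sub h.dvd h2
        simpa using this
      exact (hpp.dvd_of_dvd_pow this).mul_left 2
  rw [← hab]
  constructor
  · intro e
    have h1 : D.elt b 1 ∈ D.conjIdeal P := by rw [e]; simpa using h.mem_elt 0 1
    rw [mem_conjIdeal, conj_elt, h.mem_iff] at h1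
    simpa [two_mul] using h1.2
  · intro h2
    ext z
    obtain ⟨x, y, rfl⟩ := D.exists_elt z
    rw [h.conj.mem_iff, h.mem_iff]
    refine and_congr_right fun _ => ?_
    rw [show x - b * y = (x - -b * y) - (2 * b) * y by ring]
    refine ⟨fun h3 => dvd_sub h3 (by simpa using h2.mul_right y), fun h3 => ?_⟩
    have := dvd_add h3 (show ((1 : ℕ) : ℤ) * a ∣ (2 * b) * y by simpa using h2.mul_right y)
    simpa using this

include D in
theorem exists_absNorm_eq_of_dvd {p : ℕ} (hp : p.Prime) (h : p ∣ 2 * m) :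
    ∃ P : Ideal (𝓞 K), Ideal.absNorm P = p := by
  obtain ⟨P, hP⟩ := D.exists_ideal (a := p) (b := 0) hp.pos
    (by simpa using Int.natCast_dvd_natCast.mpr h)
  exact ⟨P, by simpa using hP.absNorm_eq⟩

end FieldData

end Fermat.Agent.TwoAdic.Theta
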