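import Fermat.Agent.TwoAdic.Theta.Field.Ideals
import Mathlib.NumberTheory.LegendreSymbol.AddCharacter

/-!
# The Hecke recursion of the dihedral coefficients
-/

set_option autoImplicit false

noncomputable section

namespace Fermat.Agent.TwoAdic.Theta

open scoped NumberField nonZeroDivisors

variable {m : ℕ} {K : Type} [Field K] [NumberField K]

/-- The ideals of norm `n`. -/
def idealsOfNorm (K : Type) [Field K] [NumberField K] (n : ℕ) : Finset (Ideal (𝓞 K)) :=
  (Ideal.finite_setOfPred_absNorm_eq (S := 𝓞 K) n).toFinset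

theorem mem_idealsOfNorm {n : ℕ} {J : Ideal (𝓞 K)} :
    J ∈ idealsOfNorm K n ↔ Ideal.absNorm J = n := Set.Finite.mem_toFinset _

theorem ne_bot_of_absNorm_eq {n : ℕ} (hn : n ≠ 0) {J : Ideal (𝓞 K)} (h : Ideal.absNorm J = n) :
    J ≠ ⊥ := fun e => hn (by rw [← h, e, Ideal.absNorm_bot])

variable (χ : ClassGroup (𝓞 K) →* Multiplicative (ZMod 3))

theorem chiIdeal_eq {J : Ideal (𝓞 K)} (hJ : J ∈ (Ideal (𝓞 K))⁰) :
    chiIdeal χ J = Multiplicative.toAdd (χ (ClassGroup.mk0 ⟨J, hJ⟩)) := by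
  rw [chiIdeal, dif_pos hJ]

theorem chiIdeal_mul {I J : Ideal (𝓞 K)} (hI : I ≠ ⊥) (hJ : J ≠ ⊥) :
    chiIdeal χ (I * J) = chiIdeal χ I + chiIdeal χ J := by
  have hI' : I ∈ (Ideal (𝓞 K))⁰ := mem_nonZeroDivisors_of_ne_zero hI
  have hJ' : J ∈ (Ideal (𝓞 K))⁰ := mem_nonZeroDivisors_of_ne_zero hJ
  rw [chiIdeal_eq χ hI', chiIdeal_eq χ hJ', chiIdeal_eq χ (mul_mem hI' hJ'), ← toAdd_mul,
    ← map_mul, ← map_mul]
  rfl

theorem chiIdeal_span {x : 𝓞 K} (hx : x ≠ 0) : chiIdeal χ (Ideal.span {x}) = 0 := by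
  have h' : Ideal.span {x} ∈ (Ideal (𝓞 K))⁰ :=
    mem_nonZeroDivisors_of_ne_zero (by simpa [Ideal.span_singleton_eq_bot] using hx)
  rw [chiIdeal_eq χ h', (ClassGroup.mk0_eq_one_iff h').mpr ⟨⟨x, rfl⟩⟩, map_one, toAdd_one]

namespace FieldData

variable (D : FieldData m K)

theorem conjIdeal_ne_bot {J : Ideal (𝓞 K)} (hJ : J ≠ ⊥) : D.conjIdeal J ≠ ⊥ := fun e =>
  hJ (by rw [← D.conjIdeal_conjIdeal J, e, D.conjIdeal_bot])

theorem chiIdeal_conjIdeal (J : Ideal (𝓞 K)) :
    chiIdeal χ (D.conjIdeal J) = -chiIdeal χ J := by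
  rcases eq_or_ne J ⊥ with rfl | hJ
  · have : (⊥ : Ideal (𝓞 K)) ∉ (Ideal (𝓞 K))⁰ := fun h => nonZeroDivisors.ne_zero h rfl
    simp [conjIdeal_bot, chiIdeal, this]
  refine eq_neg_of_add_eq_zero_right ?_
  rw [← chiIdeal_mul χ hJ (D.conjIdeal_ne_bot hJ), D.mul_conjIdeal]
  exact chiIdeal_span χ (by exact_mod_cast fun e => hJ (Ideal.absNorm_eq_zero_iff.mp e))

include D in
theorem card_chi_one_eq_two (n : ℕ) :
    Nat.card {J : Ideal (𝓞 K) // Ideal.absNorm J = n ∧ chiIdeal χ J = 1} =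
      Nat.card {J : Ideal (𝓞 K) // Ideal.absNorm J = n ∧ chiIdeal χ J = 2} := by
  refine Nat.card_congr (Equiv.subtypeEquiv
    ⟨D.conjIdeal, D.conjIdeal, D.conjIdeal_conjIdeal, D.conjIdeal_conjIdeal⟩ fun J => ?_)
  change _ ↔ Ideal.absNorm (D.conjIdeal J) = n ∧ chiIdeal χ (D.conjIdeal J) = 2
  rw [D.absNorm_conjIdeal, D.chiIdeal_conjIdeal]
  refine and_congr_right fun _ => ?_
  generalize chiIdeal χ J = t
  revert t
  decide

end FieldData

/-- The complex value of the character on an ideal. -/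
def charValue (J : Ideal (𝓞 K)) : ℂ := ZMod.stdAddChar (chiIdeal χ J)

theorem charValue_mul {I J : Ideal (𝓞 K)} (hI : I ≠ ⊥) (hJ : J ≠ ⊥) :
    charValue χ (I * J) = charValue χ I * charValue χ J := by
  rw [charValue, chiIdeal_mul χ hI hJ, AddChar.map_add_eq_mul]; rfl

theorem charValue_span_nat {p : ℕ} (hp : p ≠ 0) :
    charValue χ (Ideal.span {(p : 𝓞 K)}) = 1 := by
  rw [charValue, chiIdeal_span χ (by exact_mod_cast hp), AddChar.map_zero_eq_one]

theorem natCard_eq_filter (n : ℕ) (j : ZMod 3) :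
    Nat.card {J : Ideal (𝓞 K) // Ideal.absNorm J = n ∧ chiIdeal χ J = j} =
      ((idealsOfNorm K n).filter fun J => chiIdeal χ J = j).card :=
  Nat.subtype_card _ fun J => by simp [mem_idealsOfNorm]

namespace FieldData

variable (D : FieldData m K)

include D in
/-- The dihedral coefficient is the sum of the character over the ideals of norm `n`. -/
theorem dihedralCoeff_eq_sum {n : ℕ} (hn : n ≠ 0) :
    (dihedralCoeff χ n : ℂ) = ∑ J ∈ idealsOfNorm K n, charValue χ J := by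
  have h := D.card_chi_one_eq_two χ n
  rw [natCard_eq_filter, natCard_eq_filter] at h
  rw [dihedralCoeff, if_neg hn, natCard_eq_filter, natCard_eq_filter]
  simp only [charValue]
  rw [← Finset.sum_fiberwise' (idealsOfNorm K n) (chiIdeal χ) (fun t => (ZMod.stdAddChar t : ℂ))]
  simp only [Finset.sum_const, nsmul_eq_mul]
  have hsum : (ZMod.stdAddChar (0 : ZMod 3) : ℂ) + ZMod.stdAddChar (1 : ZMod 3) +
      ZMod.stdAddChar (2 : ZMod 3) = 0 := by
    have h3 := AddChar.sum_eq_zero_of_ne_one (ψ := (ZMod.stdAddChar : AddChar (ZMod 3) ℂ))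
      (fun e => by
        have h1 : (ZMod.stdAddChar (1 : ZMod 3) : ℂ) = 1 := by rw [e]; rfl
        exact one_ne_zero (ZMod.injective_stdAddChar (h1.trans
          (AddChar.map_zero_eq_one _).symm)))
    exact (Fin.sum_univ_three (fun t : ZMod 3 => (ZMod.stdAddChar t : ℂ))).symm.trans h3
  have h3 : ∀ f : ZMod 3 → ℂ, ∑ t, f t = f 0 + f 1 + f 2 := fun f => Fin.sum_univ_three f
  rw [h3, ← h, AddChar.map_zero_eq_one]
  rw [AddChar.map_zero_eq_one] at hsum
  push_cast
  linear_combination (-((Finset.filter (fun J => chiIdeal χ J = 1) (idealsOfNorm K n)).card : ℂ))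
    * hsum

theorem mul_left_injective_ideal {P : Ideal (𝓞 K)} (hP : P ≠ ⊥) :
    Function.Injective (P * ·) := fun _ _ h => mul_left_cancel₀ hP h

include D in
/-- The Hecke recursion at a prime. -/
theorem exists_sum_recursion {p n : ℕ} (hp : p.Prime) (hn : n ≠ 0) :
    ∃ ε : ℂ, (ε = 1 ∨ ε = -1) ∧
      (∑ J ∈ idealsOfNorm K (p * n), charValue χ J) +
        ε * (if p ∣ 2 * m then 0 else if p ∣ n then
          ∑ J ∈ idealsOfNorm K (n / p), charValue χ J else 0) =
      (∑ J ∈ idealsOfNorm K p, charValue χ J) * ∑ J ∈ idealsOfNorm K n, charValue χ J := by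
  classical
  have hpn : p * n ≠ 0 := mul_ne_zero hp.ne_zero hn
  have hnp : Ideal.span {(p : 𝓞 K)} ≠ ⊥ := by simpa using hp.ne_zero
  have himage : ∀ (P : Ideal (𝓞 K)) (a : ℕ), P ≠ ⊥ → a ≠ 0 →
      ∑ J ∈ (idealsOfNorm K a).image (P * ·), charValue χ J =
        charValue χ P * ∑ J ∈ idealsOfNorm K a, charValue χ J := by
    intro P a hP ha
    rw [Finset.sum_image fun x _ y _ h => mul_left_injective_ideal hP h, Finset.mul_sum]
    exact Finset.sum_congr rfl fun J hJ =>
      charValue_mul χ hP (ne_bot_of_absNorm_eq ha (mem_idealsOfNorm.mp hJ))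
  have hspan : ∀ J : Ideal (𝓞 K), Ideal.absNorm J = p * n → Ideal.span {(p : 𝓞 K)} ∣ J →
      p ∣ n ∧ ∃ R, Ideal.absNorm R = n / p ∧ J = Ideal.span {(p : 𝓞 K)} * R := by
    rintro J hJ ⟨R, rfl⟩
    rw [map_mul, D.absNorm_span_nat, pow_two, mul_assoc] at hJ
    have := mul_left_cancel₀ hp.ne_zero hJ
    exact ⟨⟨_, this.symm⟩, R, by rw [← this, Nat.mul_div_cancel_left _ hp.pos], rfl⟩
  have hspan' : p ∣ n → ∀ R : Ideal (𝓞 K), Ideal.absNorm R = n / p →
      Ideal.absNorm (Ideal.span {(p : 𝓞 K)} * R) = p * n := by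
    rintro ⟨q, rfl⟩ R hR
    rw [Nat.mul_div_cancel_left _ hp.pos] at hR
    rw [map_mul, D.absNorm_span_nat, hR]; ring
  by_cases hex : ∃ P : Ideal (𝓞 K), Ideal.absNorm P = p
  swap
  · rw [not_exists] at hex
    have hm : ¬ p ∣ 2 * m := fun h => (D.exists_absNorm_eq_of_dvd hp h).elim hex
    have hp0 : idealsOfNorm K p = ∅ := Finset.eq_empty_of_forall_notMem fun P hP =>
      hex P (mem_idealsOfNorm.mp hP)
    refine ⟨-1, Or.inr rfl, ?_⟩
    rw [hp0, Finset.sum_empty, zero_mul, if_neg hm]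
    by_cases hd : p ∣ n
    · have hset : idealsOfNorm K (p * n) =
          (idealsOfNorm K (n / p)).image (Ideal.span {(p : 𝓞 K)} * ·) := by
        ext J
        simp only [Finset.mem_image, mem_idealsOfNorm]
        refine ⟨fun hJ => ?_, ?_⟩
        · obtain ⟨-, R, hR, rfl⟩ := hspan J hJ (D.span_dvd_of_absNorm hp hex
            (hJ ▸ dvd_mul_right p n))
          exact ⟨R, hR, rfl⟩
        · rintro ⟨R, hR, rfl⟩
          exact hspan' hd R hR
      rw [if_pos hd, hset, himage _ _ hnp, charValue_span_nat χ hp.ne_zero]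
      · ring
      · exact (Nat.div_pos (Nat.le_of_dvd (Nat.pos_of_ne_zero hn) hd) hp.pos).ne'
    · have hset : idealsOfNorm K (p * n) = ∅ := Finset.eq_empty_of_forall_notMem fun J hJ =>
        hd (hspan J (mem_idealsOfNorm.mp hJ) (D.span_dvd_of_absNorm hp hex
          ((mem_idealsOfNorm.mp hJ) ▸ dvd_mul_right p n))).1
      rw [if_neg hd, hset, Finset.sum_empty, mul_zero, add_zero]
  obtain ⟨P, hP⟩ := hex
  set Q := D.conjIdeal P with hQ
  have hQn : Ideal.absNorm Q = p := by rw [hQ, D.absNorm_conjIdeal, hP]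
  have hP0 := ne_bot_of_absNorm_eq hp.ne_zero hP
  have hQ0 := ne_bot_of_absNorm_eq hp.ne_zero hQn
  have hSp : idealsOfNorm K p = {P, Q} := by
    ext J
    simp only [mem_idealsOfNorm, Finset.mem_insert, Finset.mem_singleton]
    refine ⟨fun hJ => ?_, by rintro (rfl | rfl) <;> assumption⟩
    have key : ∀ R : Ideal (𝓞 K), Ideal.absNorm R = p → R ∣ J → J = R := by
      rintro R hR ⟨T, rfl⟩
      rw [map_mul, hR, mul_eq_left₀ hp.ne_zero, Ideal.absNorm_eq_one_iff] at hJ
      rw [hJ, Ideal.mul_top]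
    exact (D.dvd_or_dvd_of_absNorm hp hP (hJ ▸ dvd_refl p)).imp (key P hP) (key Q hQn)
  have hset : idealsOfNorm K (p * n) =
      (idealsOfNorm K n).image (P * ·) ∪ (idealsOfNorm K n).image (Q * ·) := by
    ext J
    simp only [Finset.mem_union, Finset.mem_image, mem_idealsOfNorm]
    constructor
    · intro hJ
      have key : ∀ R : Ideal (𝓞 K), Ideal.absNorm R = p → R ∣ J →
          ∃ a, Ideal.absNorm a = n ∧ R * a = J := by
        rintro R hR ⟨T, rfl⟩
        rw [map_mul, hR] at hJ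
        exact ⟨T, mul_left_cancel₀ hp.ne_zero hJ, rfl⟩
      exact (D.dvd_or_dvd_of_absNorm hp hP (hJ ▸ dvd_mul_right p n)).imp (key P hP) (key Q hQn)
    · rintro (⟨R, hR, rfl⟩ | ⟨R, hR, rfl⟩) <;> simp [hP, hQn, hR]
  by_cases hPQ : P = Q
  · refine ⟨1, Or.inl rfl, ?_⟩
    rw [if_pos ((D.conjIdeal_eq_iff hp hP).mp hPQ.symm), mul_zero, add_zero, hset, hSp, ← hPQ,
      Finset.union_idempotent, himage P n hP0 hn, Finset.pair_eq_singleton, Finset.sum_singleton]
  have hm : ¬ p ∣ 2 * m := fun h => hPQ ((D.conjIdeal_eq_iff hp hP).mpr h).symm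
  have hPQmul : P * Q = Ideal.span {(p : 𝓞 K)} := by rw [hQ, D.mul_conjIdeal, hP]
  have hinter : (idealsOfNorm K n).image (P * ·) ∩ (idealsOfNorm K n).image (Q * ·) =
      if p ∣ n then (idealsOfNorm K (n / p)).image (Ideal.span {(p : 𝓞 K)} * ·) else ∅ := by
    ext J
    simp only [Finset.mem_inter, Finset.mem_image, mem_idealsOfNorm]
    constructor
    · rintro ⟨⟨R, hR, rfl⟩, T, hT, hTR⟩
      have hQR : Q ∣ R := by
        have hprime : Prime Q := Ideal.prime_of_isPrime hQ0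
          (Ideal.isPrime_of_irreducible_absNorm (hQn ▸ hp))
        refine (hprime.dvd_or_dvd (show Q ∣ P * R from ⟨T, hTR.symm⟩)).resolve_left ?_
        rintro ⟨W, hW⟩
        have := congrArg Ideal.absNorm hW
        rw [hP, map_mul, hQn, eq_comm, mul_eq_left₀ hp.ne_zero, Ideal.absNorm_eq_one_iff] at this
        rw [this, Ideal.mul_top] at hW
        exact hPQ hW
      obtain ⟨W, rfl⟩ := hQR
      obtain ⟨hd, V, hV, hV'⟩ := hspan (P * (Q * W)) (by rw [map_mul, hP, hR])
        ⟨W, by rw [← mul_assoc, hPQmul]⟩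
      rw [if_pos hd, Finset.mem_image]
      exact ⟨V, mem_idealsOfNorm.mpr hV, hV'.symm⟩
    · intro hJ
      split_ifs at hJ with hd
      · obtain ⟨R, hR, rfl⟩ := Finset.mem_image.mp hJ
        rw [mem_idealsOfNorm] at hR
        obtain ⟨q, rfl⟩ := hd
        rw [Nat.mul_div_cancel_left _ hp.pos] at hR
        exact ⟨⟨Q * R, by simp [hQn, hR], by rw [← mul_assoc, hPQmul]⟩,
          ⟨P * R, by simp [hP, hR], by rw [← mul_assoc, mul_comm Q P, hPQmul]⟩⟩
      · simp at hJ
  refine ⟨1, Or.inl rfl, ?_⟩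
  have h := Finset.sum_union_inter (f := charValue χ) (s₁ := (idealsOfNorm K n).image (P * ·))
    (s₂ := (idealsOfNorm K n).image (Q * ·))
  rw [← hset, hinter, himage P n hP0 hn, himage Q n hQ0 hn] at h
  rw [hSp, Finset.sum_pair hPQ, if_neg hm, one_mul, add_mul, ← h]
  split_ifs with hd
  · rw [himage _ _ hnp (Nat.div_pos (Nat.le_of_dvd (Nat.pos_of_ne_zero hn) hd) hp.pos).ne',
      charValue_span_nat χ hp.ne_zero, one_mul]
  · simp

include D in
theorem parity_recursion {p : ℕ} (hp : p.Prime) (n : ℕ) :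
    dihedralParity χ (p * n) +
      (if p ∣ 2 * m then 0 else if p ∣ n then dihedralParity χ (n / p) else 0) =
    dihedralParity χ p * dihedralParity χ n := by
  rcases Nat.eq_zero_or_pos n with rfl | hn
  · simp [dihedralParity, dihedralCoeff]
  obtain ⟨ε, hε, h⟩ := D.exists_sum_recursion χ hp hn.ne'
  rw [← D.dihedralCoeff_eq_sum χ (mul_ne_zero hp.ne_zero hn.ne'),
    ← D.dihedralCoeff_eq_sum χ hp.ne_zero, ← D.dihedralCoeff_eq_sum χ hn.ne'] at h
  simp only [dihedralParity]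
  split_ifs at h ⊢ with h1 h2
  · have : dihedralCoeff χ (p * n) = dihedralCoeff χ p * dihedralCoeff χ n := by
      refine Int.cast_injective (α := ℂ) ?_
      push_cast
      simpa using h
    simp [this]
  · rw [← D.dihedralCoeff_eq_sum χ (Nat.div_pos (Nat.le_of_dvd hn h2) hp.pos).ne'] at h
    rcases hε with rfl | rfl
    · have : dihedralCoeff χ (p * n) + dihedralCoeff χ (n / p) =
          dihedralCoeff χ p * dihedralCoeff χ n := by
        refine Int.cast_injective (α := ℂ) ?_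
        push_cast
        simpa using h
      rw [← Int.cast_mul, ← this, Int.cast_add]
    · have : dihedralCoeff χ (p * n) - dihedralCoeff χ (n / p) =
          dihedralCoeff χ p * dihedralCoeff χ n := by
        refine Int.cast_injective (α := ℂ) ?_
        push_cast
        simpa [sub_eq_add_neg] using h
      rw [← Int.cast_mul, ← this, Int.cast_sub, CharTwo.sub_eq_add]
  · have : dihedralCoeff χ (p * n) = dihedralCoeff χ p * dihedralCoeff χ n := by
      refine Int.cast_injective (α := ℂ) ?_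
      push_cast
      simpa using h
    simp [this]

end FieldData

theorem dihedralParity_one : dihedralParity χ 1 = 1 := by
  have h0 : chiIdeal χ (⊤ : Ideal (𝓞 K)) = 0 := by
    rw [← Ideal.span_singleton_one]; exact chiIdeal_span χ one_ne_zero
  have hS : idealsOfNorm K 1 = {⊤} := by
    ext J; simp [mem_idealsOfNorm]
  rw [dihedralParity, dihedralCoeff, if_neg one_ne_zero, natCard_eq_filter, natCard_eq_filter, hS]
  simp [Finset.filter_singleton, h0]

namespace FieldData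

variable (D : FieldData m K)

include D in
theorem parity_prime {p : ℕ} (hp : p.Prime) (hm : ¬ p ∣ 2 * m) :
    dihedralParity χ p = 1 ↔ ∃ P : Ideal (𝓞 K), Ideal.absNorm P = p ∧ chiIdeal χ P ≠ 0 := by
  have hcast : ∀ j : ZMod 3, (Nat.card {J : Ideal (𝓞 K) // Ideal.absNorm J = p ∧ chiIdeal χ J = j})
      = ((idealsOfNorm K p).filter fun J => chiIdeal χ J = j).card := natCard_eq_filter χ p
  rw [dihedralParity, dihedralCoeff, if_neg hp.ne_zero, hcast, hcast]
  by_cases hex : ∃ P : Ideal (𝓞 K), Ideal.absNorm P = p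
  swap
  · have hp0 : idealsOfNorm K p = ∅ := Finset.eq_empty_of_forall_notMem fun P hP =>
      hex ⟨P, mem_idealsOfNorm.mp hP⟩
    simp only [hp0, Finset.filter_empty, Finset.card_empty]
    exact iff_of_false (by simp) fun ⟨P, hP, _⟩ => hex ⟨P, hP⟩
  obtain ⟨P, hP⟩ := hex
  have hne : P ≠ D.conjIdeal P := fun e => hm ((D.conjIdeal_eq_iff hp hP).mp e.symm)
  have hP' : Ideal.absNorm (D.conjIdeal P) = p := by rw [D.absNorm_conjIdeal, hP]
  have hall : ∀ J : Ideal (𝓞 K), Ideal.absNorm J = p → J = P ∨ J = D.conjIdeal P := by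
    intro J hJ
    have key : ∀ R : Ideal (𝓞 K), Ideal.absNorm R = p → R ∣ J → J = R := by
      rintro R hR ⟨T, rfl⟩
      rw [map_mul, hR, mul_eq_left₀ hp.ne_zero, Ideal.absNorm_eq_one_iff] at hJ
      rw [hJ, Ideal.mul_top]
    exact (D.dvd_or_dvd_of_absNorm hp hP (hJ ▸ dvd_refl p)).imp (key P hP) (key _ hP')
  have hS : idealsOfNorm K p = {P, D.conjIdeal P} := by
    ext J
    simp only [mem_idealsOfNorm, Finset.mem_insert, Finset.mem_singleton]
    exact ⟨hall J, by rintro (rfl | rfl) <;> assumption⟩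
  have hiff : (∃ Q : Ideal (𝓞 K), Ideal.absNorm Q = p ∧ chiIdeal χ Q ≠ 0) ↔ chiIdeal χ P ≠ 0 := by
    refine ⟨fun ⟨Q, hQ, h0⟩ => ?_, fun h => ⟨P, hP, h⟩⟩
    rcases hall Q hQ with rfl | rfl
    · exact h0
    · simpa [D.chiIdeal_conjIdeal] using h0
  rw [hiff, hS]
  simp only [Finset.filter_insert, Finset.filter_singleton, D.chiIdeal_conjIdeal]
  rcases (show chiIdeal χ P = 0 ∨ chiIdeal χ P = 1 ∨ chiIdeal χ P = 2 by
    generalize chiIdeal χ P = t; revert t; decide) with h | h | h <;>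
    simp [h, hne, show (-1 : ZMod 3) = 2 by decide, show (-2 : ZMod 3) = 1 by decide,
      show (2 : ZMod 3) ≠ 1 by decide,
      show (2 : ZMod 3) ≠ 0 by decide] <;> decide

end FieldData

end Fermat.Agent.TwoAdic.Theta
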